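import Mathlib

/-!
# S13 / T1: the binary `x`-ladder `(N_k : D_k)` for multiplication by `k`

Generic definitions over a commutative ring `R`: `b₂ b₄ b₆ b₈ x : R` are the `b`-invariants of a
Weierstrass curve and (the `x`-coordinate of) a point `P`; `lad k = (N_k, D_k)` is a projective
representative of `x(kP)`.  Applied with `R = K` we get values, with `R = K[X]`, `x = X` we get
polynomials.
-/

namespace Fermat.Agent.S13.H891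

variable {R : Type*} [CommRing R]

/-- homogenised numerator of the duplication map -/
def dblN (b₄ b₆ b₈ n d : R) : R := n^4 - b₄*n^2*d^2 - 2*b₆*n*d^3 - b₈*d^4

/-- homogenised denominator of the duplication map -/
def dblD (b₂ b₄ b₆ n d : R) : R := d*(4*n^3 + b₂*n^2*d + 2*b₄*n*d^2 + b₆*d^3)

/-- `x₁ - x₂`, homogenised -/
def addW (n₁ d₁ n₂ d₂ : R) : R := n₁*d₂ - n₂*d₁

/-- `(x₁ - x₂)^2 (x(Q+R) + x(Q-R))`, homogenised -/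
def addS (b₂ b₄ b₆ n₁ d₁ n₂ d₂ : R) : R :=
  2*n₁*n₂*(n₁*d₂ + n₂*d₁) + b₂*n₁*n₂*d₁*d₂ + b₄*d₁*d₂*(n₁*d₂ + n₂*d₁) + b₆*d₁^2*d₂^2

/-- numerator of the differential addition -/
def addN (b₂ b₄ b₆ x n₁ d₁ n₂ d₂ : R) : R :=
  addS b₂ b₄ b₆ n₁ d₁ n₂ d₂ - x * (addW n₁ d₁ n₂ d₂)^2

/-- denominator of the differential addition -/
def addD (n₁ d₁ n₂ d₂ : R) : R := (addW n₁ d₁ n₂ d₂)^2

/-- the ladder: `lad k = (N_k, D_k)` -/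
def lad (b₂ b₄ b₆ b₈ x : R) : ℕ → R × R
  | 0 => (1, 0)
  | 1 => (x, 1)
  | (n+2) =>
    if n % 2 = 0 then
      (dblN b₄ b₆ b₈ (lad b₂ b₄ b₆ b₈ x (n/2+1)).1 (lad b₂ b₄ b₆ b₈ x (n/2+1)).2,
       dblD b₂ b₄ b₆ (lad b₂ b₄ b₆ b₈ x (n/2+1)).1 (lad b₂ b₄ b₆ b₈ x (n/2+1)).2)
    else
      (addN b₂ b₄ b₆ x (lad b₂ b₄ b₆ b₈ x ((n+1)/2)).1 (lad b₂ b₄ b₆ b₈ x ((n+1)/2)).2
          (lad b₂ b₄ b₆ b₈ x ((n+1)/2+1)).1 (lad b₂ b₄ b₆ b₈ x ((n+1)/2+1)).2,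
       addD (lad b₂ b₄ b₆ b₈ x ((n+1)/2)).1 (lad b₂ b₄ b₆ b₈ x ((n+1)/2)).2
          (lad b₂ b₄ b₆ b₈ x ((n+1)/2+1)).1 (lad b₂ b₄ b₆ b₈ x ((n+1)/2+1)).2)
termination_by n => n
decreasing_by all_goals omega

/-- `N_k` -/
def ladN (b₂ b₄ b₆ b₈ x : R) (k : ℕ) : R := (lad b₂ b₄ b₆ b₈ x k).1
/-- `D_k` -/
def ladD (b₂ b₄ b₆ b₈ x : R) (k : ℕ) : R := (lad b₂ b₄ b₆ b₈ x k).2

variable (b₂ b₄ b₆ b₈ x : R)

@[simp] lemma ladN_zero : ladN b₂ b₄ b₆ b₈ x 0 = 1 := by simp [ladN, lad]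
@[simp] lemma ladD_zero : ladD b₂ b₄ b₆ b₈ x 0 = 0 := by simp [ladD, lad]
@[simp] lemma ladN_one : ladN b₂ b₄ b₆ b₈ x 1 = x := by simp [ladN, lad]
@[simp] lemma ladD_one : ladD b₂ b₄ b₆ b₈ x 1 = 1 := by simp [ladD, lad]

lemma lad_even (k : ℕ) (hk : 1 ≤ k) :
    lad b₂ b₄ b₆ b₈ x (2*k) =
      (dblN b₄ b₆ b₈ (ladN b₂ b₄ b₆ b₈ x k) (ladD b₂ b₄ b₆ b₈ x k),
       dblD b₂ b₄ b₆ (ladN b₂ b₄ b₆ b₈ x k) (ladD b₂ b₄ b₆ b₈ x k)) := by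
  obtain ⟨j, rfl⟩ : ∃ j, k = j + 1 := ⟨k - 1, by omega⟩
  have h : 2 * (j + 1) = 2 * j + 2 := by ring
  rw [h, lad]
  have h1 : (2 * j) % 2 = 0 := by omega
  have h2 : (2 * j) / 2 + 1 = j + 1 := by omega
  rw [if_pos h1, h2]
  rfl

lemma lad_odd (k : ℕ) (hk : 1 ≤ k) :
    lad b₂ b₄ b₆ b₈ x (2*k+1) =
      (addN b₂ b₄ b₆ x (ladN b₂ b₄ b₆ b₈ x k) (ladD b₂ b₄ b₆ b₈ x k)
          (ladN b₂ b₄ b₆ b₈ x (k+1)) (ladD b₂ b₄ b₆ b₈ x (k+1)),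
       addD (ladN b₂ b₄ b₆ b₈ x k) (ladD b₂ b₄ b₆ b₈ x k)
          (ladN b₂ b₄ b₆ b₈ x (k+1)) (ladD b₂ b₄ b₆ b₈ x (k+1))) := by
  obtain ⟨j, rfl⟩ : ∃ j, k = j + 1 := ⟨k - 1, by omega⟩
  have h : 2 * (j + 1) + 1 = (2 * j + 1) + 2 := by ring
  rw [h, lad]
  have h1 : ¬ (2 * j + 1) % 2 = 0 := by omega
  have h2 : (2 * j + 1 + 1) / 2 = j + 1 := by omega
  rw [if_neg h1, h2]
  rfl

lemma ladN_even (k : ℕ) (hk : 1 ≤ k) : ladN b₂ b₄ b₆ b₈ x (2*k) =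
    dblN b₄ b₆ b₈ (ladN b₂ b₄ b₆ b₈ x k) (ladD b₂ b₄ b₆ b₈ x k) := by
  rw [ladN, lad_even _ _ _ _ _ k hk]

lemma ladD_even (k : ℕ) (hk : 1 ≤ k) : ladD b₂ b₄ b₆ b₈ x (2*k) =
    dblD b₂ b₄ b₆ (ladN b₂ b₄ b₆ b₈ x k) (ladD b₂ b₄ b₆ b₈ x k) := by
  rw [ladD, lad_even _ _ _ _ _ k hk]

lemma ladN_odd (k : ℕ) (hk : 1 ≤ k) : ladN b₂ b₄ b₆ b₈ x (2*k+1) =
    addN b₂ b₄ b₆ x (ladN b₂ b₄ b₆ b₈ x k) (ladD b₂ b₄ b₆ b₈ x k)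
      (ladN b₂ b₄ b₆ b₈ x (k+1)) (ladD b₂ b₄ b₆ b₈ x (k+1)) := by
  rw [ladN, lad_odd _ _ _ _ _ k hk]

lemma ladD_odd (k : ℕ) (hk : 1 ≤ k) : ladD b₂ b₄ b₆ b₈ x (2*k+1) =
    addD (ladN b₂ b₄ b₆ b₈ x k) (ladD b₂ b₄ b₆ b₈ x k)
      (ladN b₂ b₄ b₆ b₈ x (k+1)) (ladD b₂ b₄ b₆ b₈ x (k+1)) := by
  rw [ladD, lad_odd _ _ _ _ _ k hk]

/-- binary induction principle adapted to the ladder -/
theorem ladder_induction {P : ℕ → Prop} (h1 : P 1)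
    (heven : ∀ k, 1 ≤ k → P k → P (2*k))
    (hodd : ∀ k, 1 ≤ k → P k → P (k+1) → P (2*k+1)) : ∀ k, 1 ≤ k → P k := by
  intro k
  induction k using Nat.strong_induction_on with
  | _ k ih =>
    intro hk
    rcases Nat.even_or_odd' k with ⟨j, rfl | rfl⟩
    · have hj : 1 ≤ j := by omega
      exact heven j hj (ih j (by omega) hj)
    · rcases Nat.eq_zero_or_pos j with rfl | hj
      · exact h1
      · exact hodd j hj (ih j (by omega) hj) (ih (j+1) (by omega) (by omega))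

section map

variable {S : Type*} [CommRing S] (φ : R →+* S)

lemma map_lad (k : ℕ) :
    lad (φ b₂) (φ b₄) (φ b₆) (φ b₈) (φ x) k =
      (φ (lad b₂ b₄ b₆ b₈ x k).1, φ (lad b₂ b₄ b₆ b₈ x k).2) := by
  induction k using Nat.strong_induction_on with
  | _ k ih =>
    match k with
    | 0 => simp [lad]
    | 1 => simp [lad]
    | (n+2) =>
      rw [lad, lad]
      split_ifs with h
      · rw [ih (n/2+1) (by omega)]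
        simp only [dblN, dblD, map_sub, map_mul, map_pow, map_add, map_ofNat]
      · rw [ih ((n+1)/2) (by omega), ih ((n+1)/2+1) (by omega)]
        simp only [addN, addD, addS, addW, map_sub, map_mul, map_pow, map_add, map_ofNat]

lemma map_ladN (k : ℕ) :
    ladN (φ b₂) (φ b₄) (φ b₆) (φ b₈) (φ x) k = φ (ladN b₂ b₄ b₆ b₈ x k) := by
  rw [ladN, map_lad]; rfl

lemma map_ladD (k : ℕ) :
    ladD (φ b₂) (φ b₄) (φ b₆) (φ b₈) (φ x) k = φ (ladD b₂ b₄ b₆ b₈ x k) := by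
  rw [ladD, map_lad]; rfl

end map

end Fermat.Agent.S13.H891
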