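import Mathlib
import Fermat.Agent.S13.H891.LadderDef

/-!
# S13 / T1: degrees and leading coefficients of the ladder polynomials
-/

open Polynomial

namespace Fermat.Agent.S13.H891

variable {R : Type*} [CommRing R]

/-- `DC p n c`: `p` has degree at most `n` and its `n`-th coefficient is `c` -/
def DC (p : R[X]) (n : ℕ) (c : R) : Prop := p.natDegree ≤ n ∧ p.coeff n = c

namespace DC

variable {p q : R[X]} {n m : ℕ} {a b : R}

lemma mul (hp : DC p n a) (hq : DC q m b) : DC (p * q) (n + m) (a * b) :=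
  ⟨natDegree_mul_le_of_le hp.1 hq.1, by
    rw [coeff_mul_add_eq_of_natDegree_le hp.1 hq.1, hp.2, hq.2]⟩

lemma pow (hp : DC p n a) (e : ℕ) : DC (p ^ e) (e * n) (a ^ e) :=
  ⟨natDegree_pow_le_of_le e hp.1, by rw [coeff_pow_of_natDegree_le hp.1, hp.2]⟩

lemma add (hp : DC p n a) (hq : DC q n b) : DC (p + q) n (a + b) :=
  ⟨natDegree_add_le_of_degree_le hp.1 hq.1, by rw [coeff_add, hp.2, hq.2]⟩

lemma sub (hp : DC p n a) (hq : DC q n b) : DC (p - q) n (a - b) :=
  ⟨(natDegree_sub_le_of_le hp.1 hq.1).trans (by simp), by rw [coeff_sub, hp.2, hq.2]⟩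

lemma of_lt (hp : p.natDegree ≤ m) (h : m < n) : DC p n 0 :=
  ⟨hp.trans h.le, coeff_eq_zero_of_natDegree_lt (lt_of_le_of_lt hp h)⟩

lemma congr (hp : DC p n a) (hn : n = m) (ha : a = b) : DC p m b := by
  subst hn; subst ha; exact hp

lemma C_mul (r : R) (hp : DC p n a) : DC (C r * p) n (r * a) :=
  ⟨(natDegree_C_mul_le r p).trans hp.1, by rw [coeff_C_mul, hp.2]⟩

lemma natCast_mul (r : ℕ) (hp : DC p n a) : DC ((r : R[X]) * p) n ((r : R) * a) := by
  have : ((r : R[X])) = C (r : R) := by simp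
  rw [this]; exact hp.C_mul _

lemma X : DC (Polynomial.X : R[X]) 1 1 := ⟨natDegree_X_le, coeff_X_one⟩

end DC

variable (b₂ b₄ b₆ b₈ : R)

/-- the ladder polynomial `N_k` -/
noncomputable def polyN (k : ℕ) : R[X] := ladN (C b₂) (C b₄) (C b₆) (C b₈) Polynomial.X k
/-- the ladder polynomial `D_k` -/
noncomputable def polyD (k : ℕ) : R[X] := ladD (C b₂) (C b₄) (C b₆) (C b₈) Polynomial.X k
/-- the polynomial `W_k = N_k D_{k+1} - N_{k+1} D_k`; for `n = 2k+1` this is the `n`-division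
polynomial up to sign -/
noncomputable def polyW (k : ℕ) : R[X] :=
  addW (polyN b₂ b₄ b₆ b₈ k) (polyD b₂ b₄ b₆ b₈ k) (polyN b₂ b₄ b₆ b₈ (k+1))
    (polyD b₂ b₄ b₆ b₈ (k+1))

lemma eval_polyN (x : R) (k : ℕ) : (polyN b₂ b₄ b₆ b₈ k).eval x = ladN b₂ b₄ b₆ b₈ x k := by
  have := map_ladN (C b₂) (C b₄) (C b₆) (C b₈) (Polynomial.X : R[X]) (evalRingHom x) k
  simp only [coe_evalRingHom, eval_C, eval_X] at this
  rw [polyN, this]

lemma eval_polyD (x : R) (k : ℕ) : (polyD b₂ b₄ b₆ b₈ k).eval x = ladD b₂ b₄ b₆ b₈ x k := by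
  have := map_ladD (C b₂) (C b₄) (C b₆) (C b₈) (Polynomial.X : R[X]) (evalRingHom x) k
  simp only [coe_evalRingHom, eval_C, eval_X] at this
  rw [polyD, this]

lemma eval_polyW (x : R) (k : ℕ) : (polyW b₂ b₄ b₆ b₈ k).eval x =
    addW (ladN b₂ b₄ b₆ b₈ x k) (ladD b₂ b₄ b₆ b₈ x k) (ladN b₂ b₄ b₆ b₈ x (k+1))
      (ladD b₂ b₄ b₆ b₈ x (k+1)) := by
  simp only [polyW, addW, eval_sub, eval_mul, eval_polyN, eval_polyD]

section map

variable {S : Type*} [CommRing S] (φ : R →+* S)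

lemma map_polyN (k : ℕ) :
    (polyN b₂ b₄ b₆ b₈ k).map φ = polyN (φ b₂) (φ b₄) (φ b₆) (φ b₈) k := by
  have := map_ladN (C b₂) (C b₄) (C b₆) (C b₈) (Polynomial.X : R[X]) (mapRingHom φ) k
  simp only [coe_mapRingHom, map_C, map_X] at this
  rw [polyN, polyN, this]

lemma map_polyD (k : ℕ) :
    (polyD b₂ b₄ b₆ b₈ k).map φ = polyD (φ b₂) (φ b₄) (φ b₆) (φ b₈) k := by
  have := map_ladD (C b₂) (C b₄) (C b₆) (C b₈) (Polynomial.X : R[X]) (mapRingHom φ) k
  simp only [coe_mapRingHom, map_C, map_X] at this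
  rw [polyD, polyD, this]

lemma map_polyW (k : ℕ) :
    (polyW b₂ b₄ b₆ b₈ k).map φ = polyW (φ b₂) (φ b₄) (φ b₆) (φ b₈) k := by
  simp only [polyW, addW, Polynomial.map_sub, Polynomial.map_mul, map_polyN, map_polyD]

end map

/-- degree and leading coefficient of `N_k`, `D_k` -/
theorem dc_poly (k : ℕ) (hk : 1 ≤ k) :
    DC (polyN b₂ b₄ b₆ b₈ k) (k^2) 1 ∧ DC (polyD b₂ b₄ b₆ b₈ k) (k^2 - 1) ((k : R)^2) := by
  revert hk
  refine ladder_induction (P := fun k => DC (polyN b₂ b₄ b₆ b₈ k) (k^2) 1 ∧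
    DC (polyD b₂ b₄ b₆ b₈ k) (k^2 - 1) ((k : R)^2)) ?_ ?_ ?_ k
  · constructor
    · simp only [polyN, ladN_one]
      exact DC.X.congr (by norm_num) rfl
    · simp only [polyD, ladD_one]
      exact ⟨by simp, by simp⟩
  · -- doubling
    intro k hk ⟨hN, hD⟩
    have ha : 1 ≤ k^2 := Nat.one_le_pow _ _ hk
    have e2 : (2*k)^2 = 4 * k^2 := by ring
    generalize hA : k^2 = A at hN hD ha e2
    set N := polyN b₂ b₄ b₆ b₈ k with hNdef
    set D := polyD b₂ b₄ b₆ b₈ k with hDdef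
    constructor
    · have e : polyN b₂ b₄ b₆ b₈ (2*k) = N^4 - C b₄ * N^2 * D^2 - 2 * C b₆ * N * D^3
          - C b₈ * D^4 := by
        rw [polyN, ladN_even _ _ _ _ _ k hk]; rfl
      rw [e, e2]
      have t1 : DC (N^4) (4*A) 1 := (hN.pow 4).congr rfl (by simp)
      have t2 : DC (C b₄ * N^2 * D^2) (4*A) 0 := by
        refine DC.of_lt (m := 2*A + 2*(A-1)) ?_ (by omega)
        exact natDegree_mul_le_of_le ((natDegree_C_mul_le _ _).trans (hN.pow 2).1) (hD.pow 2).1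
      have t3 : DC (2 * C b₆ * N * D^3) (4*A) 0 := by
        refine DC.of_lt (m := A + 3*(A-1)) ?_ (by omega)
        have : (2 : R[X]) * C b₆ = C (2 * b₆) := by rw [map_mul, map_ofNat]
        rw [this]
        exact natDegree_mul_le_of_le ((natDegree_C_mul_le _ _).trans hN.1) (hD.pow 3).1
      have t4 : DC (C b₈ * D^4) (4*A) 0 := by
        refine DC.of_lt (m := 4*(A-1)) ?_ (by omega)
        exact (natDegree_C_mul_le _ _).trans (hD.pow 4).1
      exact (((t1.sub t2).sub t3).sub t4).congr rfl (by ring)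
    · have e : polyD b₂ b₄ b₆ b₈ (2*k) = D * (4 * N^3 + C b₂ * N^2 * D + 2 * C b₄ * N * D^2
          + C b₆ * D^3) := by
        rw [polyD, ladD_even _ _ _ _ _ k hk]; rfl
      rw [e, e2]
      have t1 : DC (4 * N^3) (3*A) 4 := by
        have : (4 : R[X]) = C 4 := (map_ofNat C 4).symm
        rw [this]
        exact ((hN.pow 3).C_mul 4).congr rfl (by simp)
      have t2 : DC (C b₂ * N^2 * D) (3*A) 0 := by
        refine DC.of_lt (m := 2*A + (A-1)) ?_ (by omega)
        exact natDegree_mul_le_of_le ((natDegree_C_mul_le _ _).trans (hN.pow 2).1) hD.1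
      have t3 : DC (2 * C b₄ * N * D^2) (3*A) 0 := by
        refine DC.of_lt (m := A + 2*(A-1)) ?_ (by omega)
        have : (2 : R[X]) * C b₄ = C (2 * b₄) := by rw [map_mul, map_ofNat]
        rw [this]
        exact natDegree_mul_le_of_le ((natDegree_C_mul_le _ _).trans hN.1) (hD.pow 2).1
      have t4 : DC (C b₆ * D^3) (3*A) 0 := by
        refine DC.of_lt (m := 3*(A-1)) ?_ (by omega)
        exact (natDegree_C_mul_le _ _).trans (hD.pow 3).1
      refine (hD.mul (((t1.add t2).add t3).add t4)).congr (by omega) ?_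
      push_cast; ring
  · -- differential addition
    intro k hk ⟨hN, hD⟩ ⟨hN', hD'⟩
    have ha : 1 ≤ k^2 := Nat.one_le_pow _ _ hk
    have e1 : (k+1)^2 = k^2 + 2*k + 1 := by ring
    have e2 : (2*k+1)^2 = 4 * k^2 + 4*k + 1 := by ring
    rw [e1] at hN' hD'
    generalize hA : k^2 = A at hN hD hN' hD' ha e1 e2
    set N := polyN b₂ b₄ b₆ b₈ k with hNdef
    set D := polyD b₂ b₄ b₆ b₈ k with hDdef
    set N' := polyN b₂ b₄ b₆ b₈ (k+1) with hN'def
    set D' := polyD b₂ b₄ b₆ b₈ (k+1) with hD'def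
    have hW : DC (N * D' - N' * D) (2*A + 2*k) (((k:R)+1)^2 - (k:R)^2) := by
      have t1 : DC (N * D') (2*A + 2*k) (((k:R)+1)^2) :=
        (hN.mul hD').congr (by omega) (by push_cast; ring)
      have t2 : DC (N' * D) (2*A + 2*k) ((k:R)^2) :=
        (hN'.mul hD).congr (by omega) (by ring)
      exact t1.sub t2
    have hV : DC (N * D' + N' * D) (2*A + 2*k) (((k:R)+1)^2 + (k:R)^2) := by
      have t1 : DC (N * D') (2*A + 2*k) (((k:R)+1)^2) :=
        (hN.mul hD').congr (by omega) (by push_cast; ring)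
      have t2 : DC (N' * D) (2*A + 2*k) ((k:R)^2) :=
        (hN'.mul hD).congr (by omega) (by ring)
      exact t1.add t2
    constructor
    · have e : polyN b₂ b₄ b₆ b₈ (2*k+1) =
          (2 * N * N' * (N * D' + N' * D) + C b₂ * N * N' * D * D'
            + C b₄ * D * D' * (N * D' + N' * D) + C b₆ * D^2 * D'^2)
          - Polynomial.X * (N * D' - N' * D)^2 := by
        rw [polyN, ladN_odd _ _ _ _ _ k hk]; rfl
      rw [e, e2]
      have t1 : DC (2 * N * N' * (N * D' + N' * D)) (4*A + 4*k + 1)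
          (2 * (((k:R)+1)^2 + (k:R)^2)) := by
        have h2 : (2 : R[X]) * N = C 2 * N := by rw [map_ofNat]
        rw [h2]
        refine (((hN.C_mul 2).mul hN').mul hV).congr (by omega) (by ring)
      have t2 : DC (C b₂ * N * N' * D * D') (4*A + 4*k + 1) 0 := by
        refine DC.of_lt (m := A + (A + 2*k + 1) + (A - 1) + (A + 2*k + 1 - 1)) ?_ (by omega)
        exact natDegree_mul_le_of_le (natDegree_mul_le_of_le (natDegree_mul_le_of_le
          ((natDegree_C_mul_le _ _).trans hN.1) hN'.1) hD.1) hD'.1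
      have t3 : DC (C b₄ * D * D' * (N * D' + N' * D)) (4*A + 4*k + 1) 0 := by
        refine DC.of_lt (m := (A - 1) + (A + 2*k + 1 - 1) + (2*A + 2*k)) ?_ (by omega)
        exact natDegree_mul_le_of_le (natDegree_mul_le_of_le
          ((natDegree_C_mul_le _ _).trans hD.1) hD'.1) hV.1
      have t4 : DC (C b₆ * D^2 * D'^2) (4*A + 4*k + 1) 0 := by
        refine DC.of_lt (m := 2*(A - 1) + 2*(A + 2*k + 1 - 1)) ?_ (by omega)
        exact natDegree_mul_le_of_le ((natDegree_C_mul_le _ _).trans (hD.pow 2).1) (hD'.pow 2).1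
      have t5 : DC (Polynomial.X * (N * D' - N' * D)^2) (4*A + 4*k + 1)
          ((((k:R)+1)^2 - (k:R)^2)^2) :=
        (DC.X.mul (hW.pow 2)).congr (by omega) (by ring)
      exact ((((t1.add t2).add t3).add t4).sub t5).congr rfl (by ring)
    · have e : polyD b₂ b₄ b₆ b₈ (2*k+1) = (N * D' - N' * D)^2 := by
        rw [polyD, ladD_odd _ _ _ _ _ k hk]; rfl
      rw [e, e2]
      exact (hW.pow 2).congr (by omega) (by push_cast; ring)

/-- degree and leading coefficient of `W_k` -/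
theorem dc_polyW (k : ℕ) (hk : 1 ≤ k) :
    DC (polyW b₂ b₄ b₆ b₈ k) (2*k^2 + 2*k) ((2*k+1 : ℕ) : R) := by
  obtain ⟨hN, hD⟩ := dc_poly b₂ b₄ b₆ b₈ k hk
  obtain ⟨hN', hD'⟩ := dc_poly b₂ b₄ b₆ b₈ (k+1) (by omega)
  have ha : 1 ≤ k^2 := Nat.one_le_pow _ _ hk
  have e1 : (k+1)^2 = k^2 + 2*k + 1 := by ring
  rw [e1] at hN' hD'
  generalize hA : k^2 = A at hN hD hN' hD' ha e1
  have t1 : DC (polyN b₂ b₄ b₆ b₈ k * polyD b₂ b₄ b₆ b₈ (k+1)) (2*A + 2*k) (((k:R)+1)^2) :=
    (hN.mul hD').congr (by omega) (by push_cast; ring)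
  have t2 : DC (polyN b₂ b₄ b₆ b₈ (k+1) * polyD b₂ b₄ b₆ b₈ k) (2*A + 2*k) ((k:R)^2) :=
    (hN'.mul hD).congr (by omega) (by ring)
  exact (t1.sub t2).congr rfl (by push_cast; ring)

end Fermat.Agent.S13.H891
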