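import Mathlib
import Fermat.Agent.S51.FiveTorsion
import Fermat.Agent.S13.H891.LadderDef

/-!
# S13 / T1: projective validity of the `x`-ladder
-/

open WeierstrassCurve WeierstrassCurve.Affine
open Fermat.Agent.S51.Five (xc dD dN dD_eq dN_eq xc_add_self add_self_ne_zero_of_dD_ne_zero
  eq_or_eq_neg_of_xc_eq xc_neg xc_some)

namespace Fermat.Agent.S13.H891

variable {K : Type*} [Field K]

lemma dblN_eq (b₄ b₆ b₈ n d : K) (hd : d ≠ 0) :
    dblN b₄ b₆ b₈ n d = d^4 * dN b₄ b₆ b₈ (n/d) := by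
  simp only [dblN, dN]; field_simp

lemma dblD_eq (b₂ b₄ b₆ n d : K) (hd : d ≠ 0) :
    dblD b₂ b₄ b₆ n d = d^4 * dD b₂ b₄ b₆ (n/d) := by
  simp only [dblD, dD]; field_simp

/-- the symmetric function `S(u,v) = (u-v)^2 (x(Q+R) + x(Q-R))` -/
def sS (b₂ b₄ b₆ u v : K) : K := 2*u*v*(u+v) + b₂*u*v + b₄*(u+v) + b₆

lemma addS_eq (b₂ b₄ b₆ n₁ d₁ n₂ d₂ : K) (h₁ : d₁ ≠ 0) (h₂ : d₂ ≠ 0) :
    addS b₂ b₄ b₆ n₁ d₁ n₂ d₂ = d₁^2 * d₂^2 * sS b₂ b₄ b₆ (n₁/d₁) (n₂/d₂) := by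
  simp only [addS, sS]; field_simp

lemma addW_eq (n₁ d₁ n₂ d₂ : K) (h₁ : d₁ ≠ 0) (h₂ : d₂ ≠ 0) :
    addW n₁ d₁ n₂ d₂ = d₁ * d₂ * (n₁/d₁ - n₂/d₂) := by
  simp only [addW]; field_simp

lemma sS_self (b₂ b₄ b₆ u : K) : sS b₂ b₄ b₆ u u = dD b₂ b₄ b₆ u := by
  simp only [sS, dD]; ring

variable [DecidableEq K] {E : WeierstrassCurve.Affine K}

/-- `N` and `D` have no common zero at the `x`-coordinate of a (nonsingular) point -/
lemma dN_ne_zero_of_dD_eq_zero {Q : E.Point} (hQ : Q ≠ 0)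
    (hD : dD E.b₂ E.b₄ E.b₆ (xc Q) = 0) : dN E.b₄ E.b₆ E.b₈ (xc Q) ≠ 0 := by
  match Q with
  | .zero => exact absurd rfl hQ
  | .some x y h =>
    rw [xc_some] at hD ⊢
    intro hN
    have hy : y - E.negY x y = 0 := by
      have := dD_eq E h.1
      rw [hD] at this
      exact pow_eq_zero_iff (by norm_num) |>.mp this.symm
    have hn := dN_eq E h.1
    rw [hN, hy] at hn
    have hn' : 3 * x ^ 2 + 2 * E.a₂ * x + E.a₄ - E.a₁ * y = 0 := by
      have : (3 * x ^ 2 + 2 * E.a₂ * x + E.a₄ - E.a₁ * y)^2 = 0 := by linear_combination -hn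
      exact pow_eq_zero_iff (by norm_num) |>.mp this
    rcases (Affine.nonsingular_iff x y).mp h with ⟨-, h' | h'⟩
    · exact h' (by linear_combination -hn')
    · exact h' (by simp only [Affine.negY] at hy; linear_combination hy)

/-- the sum formula `x(Q+R) + x(Q-R) = S(x_Q, x_R)/(x_Q - x_R)^2` -/
lemma xc_add_add_xc_sub {Q R : E.Point} (hQ : Q ≠ 0) (hR : R ≠ 0) (hx : xc Q ≠ xc R) :
    (xc (Q + R) + xc (Q - R)) * (xc Q - xc R)^2 = sS E.b₂ E.b₄ E.b₆ (xc Q) (xc R) := by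
  match Q, R with
  | .zero, _ => exact absurd rfl hQ
  | _, .zero => exact absurd rfl hR
  | .some x₁ y₁ h₁, .some x₂ y₂ h₂ =>
    simp only [xc_some] at hx ⊢
    have hx' : x₁ - x₂ ≠ 0 := sub_ne_zero.mpr hx
    rw [sub_eq_add_neg, Point.neg_some, Point.add_of_X_ne hx, Point.add_of_X_ne hx]
    simp only [xc_some]
    rw [Affine.slope_of_X_ne hx, Affine.slope_of_X_ne hx]
    have e₁ := (Affine.equation_iff x₁ y₁).mp h₁.1
    have e₂ := (Affine.equation_iff x₂ y₂).mp h₂.1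
    simp only [Affine.addX, Affine.negY, sS, WeierstrassCurve.b₂, WeierstrassCurve.b₄,
      WeierstrassCurve.b₆]
    field_simp
    linear_combination (2 : K) * e₁ + (2 : K) * e₂

/-- `Rep Q n d`: `(n : d)` is a projective representative of `x(Q) ∈ ℙ¹` -/
def Rep (Q : E.Point) (n d : K) : Prop :=
  (Q = 0 ∧ d = 0 ∧ n ≠ 0) ∨ (Q ≠ 0 ∧ d ≠ 0 ∧ xc Q * d = n)

lemma Rep.eq_zero_iff {Q : E.Point} {n d : K} (h : Rep Q n d) : Q = 0 ↔ d = 0 := by
  rcases h with ⟨h1, h2, -⟩ | ⟨h1, h2, -⟩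
  · exact ⟨fun _ => h2, fun _ => h1⟩
  · exact ⟨fun h => absurd h h1, fun h => absurd h h2⟩

lemma Rep.xc_eq {Q : E.Point} {n d : K} (h : Rep Q n d) (hQ : Q ≠ 0) : xc Q = n / d := by
  rcases h with ⟨h1, -, -⟩ | ⟨-, h2, h3⟩
  · exact absurd h1 hQ
  · rw [eq_div_iff h2]; exact h3

lemma rep_dbl {Q : E.Point} {n d : K} (h : Rep Q n d) :
    Rep (Q + Q) (dblN E.b₄ E.b₆ E.b₈ n d) (dblD E.b₂ E.b₄ E.b₆ n d) := by
  rcases h with ⟨h1, h2, h3⟩ | ⟨h1, h2, h3⟩
  · left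
    refine ⟨by rw [h1, add_zero], by simp [dblD, h2], ?_⟩
    simp only [dblN, h2]
    ring_nf
    exact pow_ne_zero 4 h3
  · have hu : xc Q = n / d := by rw [eq_div_iff h2]; exact h3
    rw [dblN_eq _ _ _ _ _ h2, dblD_eq _ _ _ _ _ h2, ← hu]
    by_cases h2Q : Q + Q = 0
    · left
      have hD : dD E.b₂ E.b₄ E.b₆ (xc Q) = 0 := by
        by_contra hD
        exact add_self_ne_zero_of_dD_ne_zero h1 hD h2Q
      refine ⟨h2Q, by rw [hD, mul_zero], ?_⟩
      exact mul_ne_zero (pow_ne_zero 4 h2) (dN_ne_zero_of_dD_eq_zero h1 hD)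
    · right
      obtain ⟨hD, hX⟩ := xc_add_self h1 h2Q
      refine ⟨h2Q, mul_ne_zero (pow_ne_zero 4 h2) hD, ?_⟩
      rw [← hX]; ring

lemma rep_add {P Q R : E.Point} (hP : P ≠ 0) (hPQR : R = Q + P) {n₁ d₁ n₂ d₂ : K}
    (h₁ : Rep Q n₁ d₁) (h₂ : Rep R n₂ d₂) :
    Rep (Q + R) (addN E.b₂ E.b₄ E.b₆ (xc P) n₁ d₁ n₂ d₂) (addD n₁ d₁ n₂ d₂) := by
  have hQR : Q ≠ R := by
    intro h
    rw [← h] at hPQR
    exact hP (by simpa using hPQR)
  rcases h₁ with ⟨hQ, hd₁, hn₁⟩ | ⟨hQ, hd₁, hn₁⟩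
  · -- Q = 0, R = P
    have hRP : R = P := by rw [hPQR, hQ, zero_add]
    rcases h₂ with ⟨hR, -, -⟩ | ⟨hR, hd₂, hn₂⟩
    · exact absurd (hRP ▸ hR) hP
    · right
      rw [hRP] at hn₂
      refine ⟨by rw [hQ, zero_add]; exact hR, ?_, ?_⟩
      · simp only [addD, addW, hd₁]
        ring_nf
        exact mul_ne_zero (pow_ne_zero 2 hn₁) (pow_ne_zero 2 hd₂)
      · rw [hQ, zero_add, hRP]
        simp only [addN, addD, addS, addW, hd₁, ← hn₂]
        ring
  · rcases h₂ with ⟨hR, hd₂, hn₂⟩ | ⟨hR, hd₂, hn₂⟩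
    · -- R = 0, Q = -P
      have hQP : Q = -P := by
        rw [hR] at hPQR
        exact eq_neg_of_add_eq_zero_left hPQR.symm
      right
      refine ⟨by rw [hR, add_zero]; exact hQ, ?_, ?_⟩
      · simp only [addD, addW, hd₂]
        ring_nf
        exact mul_ne_zero (pow_ne_zero 2 hn₂) (pow_ne_zero 2 hd₁)
      · have hxQ : xc Q = xc P := by rw [hQP, xc_neg]
        rw [hR, add_zero]
        simp only [addN, addD, addS, addW, hd₂, ← hn₁, ← hxQ]
        ring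
    · -- both nonzero
      have hu : xc Q = n₁ / d₁ := by rw [eq_div_iff hd₁]; exact hn₁
      have hv : xc R = n₂ / d₂ := by rw [eq_div_iff hd₂]; exact hn₂
      have hW := addW_eq n₁ d₁ n₂ d₂ hd₁ hd₂
      have hS := addS_eq E.b₂ E.b₄ E.b₆ n₁ d₁ n₂ d₂ hd₁ hd₂
      rw [← hu, ← hv] at hW hS
      by_cases hx : xc Q = xc R
      · -- Q = -R
        left
        have hQR' : Q = -R := (eq_or_eq_neg_of_xc_eq hQ hR hx).resolve_left hQR
        refine ⟨by rw [hQR', neg_add_cancel], ?_, ?_⟩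
        · rw [addD, hW, hx, sub_self, mul_zero]; ring
        · rw [addN, hW, hS, hx, sub_self, mul_zero, sS_self]
          have h2R : R + R ≠ 0 := by
            intro h
            apply hQR
            rw [hQR']
            exact (eq_neg_of_add_eq_zero_left h).symm
          have hD := (xc_add_self hR h2R).1
          simp only [ne_eq, zero_pow, OfNat.ofNat_ne_zero, not_false_eq_true, mul_zero, sub_zero]
          exact mul_ne_zero (mul_ne_zero (pow_ne_zero 2 hd₁) (pow_ne_zero 2 hd₂)) hD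
      · right
        have hsum : Q + R ≠ 0 := by
          intro h
          apply hx
          rw [eq_neg_of_add_eq_zero_left h, xc_neg]
        have hdiff : xc (Q - R) = xc P := by
          have : Q - R = -P := by rw [hPQR]; abel
          rw [this, xc_neg]
        have key := xc_add_add_xc_sub hQ hR hx
        rw [hdiff] at key
        have hne : xc Q - xc R ≠ 0 := sub_ne_zero.mpr hx
        refine ⟨hsum, ?_, ?_⟩
        · rw [addD, hW]
          exact pow_ne_zero 2 (mul_ne_zero (mul_ne_zero hd₁ hd₂) hne)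
        · rw [addN, addD, hW, hS, ← key]; ring

/-- **projective validity of the ladder** -/
theorem rep_lad {P : E.Point} (hP : P ≠ 0) (k : ℕ) :
    Rep (k • P) (ladN E.b₂ E.b₄ E.b₆ E.b₈ (xc P) k) (ladD E.b₂ E.b₄ E.b₆ E.b₈ (xc P) k) := by
  rcases Nat.eq_zero_or_pos k with rfl | hk
  · left; simp
  revert hk
  refine ladder_induction (P := fun k => Rep (k • P) (ladN E.b₂ E.b₄ E.b₆ E.b₈ (xc P) k)
    (ladD E.b₂ E.b₄ E.b₆ E.b₈ (xc P) k)) ?_ ?_ ?_ k
  · right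
    simp only [one_nsmul, ladN_one, ladD_one, mul_one]
    exact ⟨hP, one_ne_zero, trivial⟩
  · intro k hk ih
    rw [ladN_even _ _ _ _ _ k hk, ladD_even _ _ _ _ _ k hk, two_mul, add_nsmul]
    exact rep_dbl ih
  · intro k hk ih ih'
    rw [ladN_odd _ _ _ _ _ k hk, ladD_odd _ _ _ _ _ k hk]
    have e : (2 * k + 1) • P = k • P + (k + 1) • P := by
      rw [← add_nsmul]; congr 1; ring
    rw [e]
    exact rep_add hP (by rw [succ_nsmul]) ih ih'

end Fermat.Agent.S13.H891
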