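import Mathlib
import Fermat.Agent.S51.FiveTorsion
import Fermat.Agent.S13.H891.LadderValid
import Fermat.Agent.S13.H891.LadderDeg

/-!
# S13 / T1: `n`-torsion of a Weierstrass curve for odd `n = 2m+1`

* `torsion_iff_root`: for `P ≠ 0`, `(2m+1) • P = 0 ↔ W_m(x(P)) = 0`;
* `exists_order_odd`: existence of a nonzero `(2m+1)`-torsion point over an algebraically closed
  field of characteristic zero;
* `card_torsion_odd_le`: `#E[2m+1] ≤ (2m+1)^2`.
-/

open WeierstrassCurve WeierstrassCurve.Affine Polynomial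
open Fermat.Agent.S51.Five (xc dD dN dD_eq dN_eq xc_add_self add_self_ne_zero_of_dD_ne_zero
  eq_or_eq_neg_of_xc_eq xc_neg xc_some exists_equation pointsOver card_pointsOver_le
  mem_pointsOver)

namespace Fermat.Agent.S13.H891

variable {K : Type*} [Field K] [DecidableEq K] {E : WeierstrassCurve.Affine K}

/-- for `P ≠ 0`: `(2m+1) P = 0` iff `x(P)` is a root of `W_m` -/
theorem torsion_iff_root {P : E.Point} (hP : P ≠ 0) (m : ℕ) :
    (2*m+1) • P = 0 ↔ (polyW E.b₂ E.b₄ E.b₆ E.b₈ m).eval (xc P) = 0 := by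
  rw [eval_polyW, addW]
  have h₁ := rep_lad hP m
  have h₂ := rep_lad hP (m+1)
  have e : (2 * m + 1) • P = m • P + (m + 1) • P := by
    rw [← add_nsmul]; congr 1; ring
  have e' : (m + 1) • P = m • P + P := succ_nsmul P m
  set N := ladN E.b₂ E.b₄ E.b₆ E.b₈ (xc P) m
  set D := ladD E.b₂ E.b₄ E.b₆ E.b₈ (xc P) m
  set N' := ladN E.b₂ E.b₄ E.b₆ E.b₈ (xc P) (m+1)
  set D' := ladD E.b₂ E.b₄ E.b₆ E.b₈ (xc P) (m+1)
  constructor
  · intro h
    rw [e] at h
    have hneg : m • P = -((m + 1) • P) := eq_neg_of_add_eq_zero_left h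
    rcases h₁ with ⟨hQ, -, -⟩ | ⟨hQ, hd₁, hn₁⟩
    · exfalso
      rw [hQ, zero_add] at h
      rw [e', hQ, zero_add] at h
      exact hP h
    · rcases h₂ with ⟨hR, -, -⟩ | ⟨hR, hd₂, hn₂⟩
      · exfalso
        rw [hR, neg_zero] at hneg
        exact hQ hneg
      · have hx : xc (m • P) = xc ((m + 1) • P) := by rw [hneg, xc_neg]
        rw [← hn₁, ← hn₂, hx]; ring
  · intro h
    rcases h₁ with ⟨hQ, hd₁, hn₁⟩ | ⟨hQ, hd₁, hn₁⟩
    · exfalso
      rw [hd₁, mul_zero, sub_zero] at h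
      have hd₂ : D' = 0 := (mul_eq_zero.mp h).resolve_left hn₁
      have hR : (m + 1) • P = 0 := h₂.eq_zero_iff.mpr hd₂
      rw [e', hQ, zero_add] at hR
      exact hP hR
    · rcases h₂ with ⟨hR, hd₂, hn₂⟩ | ⟨hR, hd₂, hn₂⟩
      · exfalso
        rw [hd₂, mul_zero, zero_sub, neg_eq_zero] at h
        exact hd₁ ((mul_eq_zero.mp h).resolve_left hn₂)
      · have hx : xc (m • P) = xc ((m + 1) • P) := by
          have : (xc (m • P) - xc ((m + 1) • P)) * (D * D') = 0 := by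
            rw [← h, ← hn₁, ← hn₂]; ring
          exact sub_eq_zero.mp ((mul_eq_zero.mp this).resolve_right (mul_ne_zero hd₁ hd₂))
        rcases eq_or_eq_neg_of_xc_eq hQ hR hx with h' | h'
        · exfalso
          rw [e'] at h'
          exact hP (by simpa using h')
        · rw [e, h', neg_add_cancel]

section degree

variable (E)

lemma natDegree_polyW (m : ℕ) (hm : 1 ≤ m) (hn : ((2*m+1 : ℕ) : K) ≠ 0) :
    (polyW E.b₂ E.b₄ E.b₆ E.b₈ m).natDegree = 2*m^2 + 2*m := by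
  obtain ⟨h1, h2⟩ := dc_polyW E.b₂ E.b₄ E.b₆ E.b₈ m hm
  exact natDegree_eq_of_le_of_coeff_ne_zero h1 (by rw [h2]; exact hn)

lemma polyW_ne_zero (m : ℕ) (hm : 1 ≤ m) (hn : ((2*m+1 : ℕ) : K) ≠ 0) :
    polyW E.b₂ E.b₄ E.b₆ E.b₈ m ≠ 0 := by
  intro h
  have := (dc_polyW E.b₂ E.b₄ E.b₆ E.b₈ m hm).2
  rw [h, coeff_zero] at this
  exact hn this.symm

end degree

/-- over an algebraically closed field of characteristic `0`, an elliptic curve has a nonzero
point killed by `2m+1`, for every `m ≥ 1` -/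
theorem exists_order_odd [IsAlgClosed K] [CharZero K] (E : WeierstrassCurve.Affine K)
    [E.IsElliptic] (m : ℕ) (hm : 1 ≤ m) : ∃ P : E.Point, P ≠ 0 ∧ (2*m+1) • P = 0 := by
  have hn : ((2*m+1 : ℕ) : K) ≠ 0 := Nat.cast_ne_zero.mpr (by omega)
  have hdeg : (polyW E.b₂ E.b₄ E.b₆ E.b₈ m).degree ≠ 0 := by
    rw [degree_eq_natDegree (polyW_ne_zero E m hm hn), natDegree_polyW E m hm hn]
    have : 0 < 2 * m ^ 2 + 2 * m := by positivity
    exact_mod_cast this.ne'
  obtain ⟨x, hx⟩ := IsAlgClosed.exists_root _ hdeg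
  obtain ⟨y, hy⟩ := exists_equation E x
  have hns : E.Nonsingular x y := Affine.equation_iff_nonsingular.mp hy
  refine ⟨Point.some x y hns, Point.some_ne_zero _, ?_⟩
  rw [torsion_iff_root (Point.some_ne_zero _)]
  exact hx

section counting

variable [CharZero K]

/-- a finite set containing all `(2m+1)`-torsion points -/
noncomputable def oddCandidates (E : WeierstrassCurve.Affine K) (m : ℕ) : Finset E.Point :=
  insert 0 (pointsOver E (polyW E.b₂ E.b₄ E.b₆ E.b₈ m).roots.toFinset)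

lemma card_oddCandidates_le (E : WeierstrassCurve.Affine K) (m : ℕ) (hm : 1 ≤ m) :
    (oddCandidates E m).card ≤ (2*m+1)^2 := by
  classical
  have hn : ((2*m+1 : ℕ) : K) ≠ 0 := Nat.cast_ne_zero.mpr (by omega)
  have h1 : (polyW E.b₂ E.b₄ E.b₆ E.b₈ m).roots.toFinset.card ≤ 2*m^2 + 2*m := by
    calc (polyW E.b₂ E.b₄ E.b₆ E.b₈ m).roots.toFinset.card
        ≤ Multiset.card (polyW E.b₂ E.b₄ E.b₆ E.b₈ m).roots := Multiset.toFinset_card_le _
      _ ≤ (polyW E.b₂ E.b₄ E.b₆ E.b₈ m).natDegree := Polynomial.card_roots' _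
      _ = 2*m^2 + 2*m := natDegree_polyW E m hm hn
  have e : (2*m+1)^2 = (2*m^2 + 2*m) * 2 + 1 := by ring
  calc (oddCandidates E m).card
      ≤ (pointsOver E (polyW E.b₂ E.b₄ E.b₆ E.b₈ m).roots.toFinset).card + 1 :=
        Finset.card_insert_le _ _
    _ ≤ (polyW E.b₂ E.b₄ E.b₆ E.b₈ m).roots.toFinset.card * 2 + 1 :=
        Nat.add_le_add_right (card_pointsOver_le E _) 1
    _ ≤ (2*m^2 + 2*m) * 2 + 1 := by omega
    _ = (2*m+1)^2 := e.symm

lemma mem_oddCandidates {P : E.Point} (m : ℕ) (hm : 1 ≤ m) (h : (2*m+1) • P = 0) :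
    P ∈ oddCandidates E m := by
  classical
  have hn : ((2*m+1 : ℕ) : K) ≠ 0 := Nat.cast_ne_zero.mpr (by omega)
  unfold oddCandidates
  by_cases hP : P = 0
  · rw [hP]; exact Finset.mem_insert_self _ _
  · apply Finset.mem_insert_of_mem
    apply mem_pointsOver hP
    rw [Multiset.mem_toFinset, Polynomial.mem_roots (polyW_ne_zero E m hm hn)]
    exact (torsion_iff_root hP m).mp h

lemma nsmul_eq_zero_of_mem_torsionBy (n : ℕ) (P : Submodule.torsionBy ℤ E.Point ((n : ℕ) : ℤ)) :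
    n • (P : E.Point) = 0 := by
  have := P.2
  rw [Submodule.mem_torsionBy_iff] at this
  rw [← this]
  exact (natCast_zsmul _ n).symm

/-- `E[2m+1]` is finite -/
theorem finite_torsion_odd (E : WeierstrassCurve.Affine K) (m : ℕ) (hm : 1 ≤ m) :
    Finite (Submodule.torsionBy ℤ E.Point ((2*m+1 : ℕ) : ℤ)) := by
  classical
  let f : Submodule.torsionBy ℤ E.Point ((2*m+1 : ℕ) : ℤ) → (oddCandidates E m) :=
    fun P => ⟨P.1, mem_oddCandidates m hm (nsmul_eq_zero_of_mem_torsionBy _ P)⟩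
  have hf : Function.Injective f := by
    intro P Q h
    exact Subtype.ext (congrArg (fun x : oddCandidates E m => (x : E.Point)) h)
  exact Finite.of_injective f hf

/-- `#E[2m+1] ≤ (2m+1)^2` -/
theorem card_torsion_odd_le (E : WeierstrassCurve.Affine K) (m : ℕ) (hm : 1 ≤ m) :
    Nat.card (Submodule.torsionBy ℤ E.Point ((2*m+1 : ℕ) : ℤ)) ≤ (2*m+1)^2 := by
  classical
  let f : Submodule.torsionBy ℤ E.Point ((2*m+1 : ℕ) : ℤ) → (oddCandidates E m) :=
    fun P => ⟨P.1, mem_oddCandidates m hm (nsmul_eq_zero_of_mem_torsionBy _ P)⟩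
  have hf : Function.Injective f := by
    intro P Q h
    exact Subtype.ext (congrArg (fun x : oddCandidates E m => (x : E.Point)) h)
  calc Nat.card (Submodule.torsionBy ℤ E.Point ((2*m+1 : ℕ) : ℤ))
      ≤ Nat.card (oddCandidates E m) := Nat.card_le_card_of_injective f hf
    _ = (oddCandidates E m).card := by rw [Nat.card_eq_fintype_card, Fintype.card_coe]
    _ ≤ (2*m+1)^2 := card_oddCandidates_le E m hm

/-- `E[2m+1]` is nontrivial over an algebraically closed field of characteristic `0` -/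
theorem nontrivial_torsion_odd [IsAlgClosed K] (E : WeierstrassCurve.Affine K) [E.IsElliptic]
    (m : ℕ) (hm : 1 ≤ m) :
    Nontrivial (Submodule.torsionBy ℤ E.Point ((2*m+1 : ℕ) : ℤ)) := by
  obtain ⟨P, hP, hP5⟩ := exists_order_odd E m hm
  have hmem : P ∈ Submodule.torsionBy ℤ E.Point ((2*m+1 : ℕ) : ℤ) := by
    rw [Submodule.mem_torsionBy_iff, natCast_zsmul]; exact hP5
  exact ⟨⟨⟨P, hmem⟩, 0, fun h => hP (congrArg Subtype.val h)⟩⟩

end counting

/-- **T1 for odd primes `p`** (stated for any odd `p ≥ 3`): over an algebraically closed field of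
characteristic `0`, `E[p]` is nontrivial, finite, of cardinality at most `p^2`. -/
theorem T1_odd [IsAlgClosed K] [CharZero K] (E : WeierstrassCurve.Affine K) [E.IsElliptic]
    (p : ℕ) (hp3 : 3 ≤ p) (hodd : Odd p) :
    Nontrivial (Submodule.torsionBy ℤ E.Point ((p : ℕ) : ℤ)) ∧
    Finite (Submodule.torsionBy ℤ E.Point ((p : ℕ) : ℤ)) ∧
    Nat.card (Submodule.torsionBy ℤ E.Point ((p : ℕ) : ℤ)) ≤ p ^ 2 := by
  obtain ⟨m, rfl⟩ := hodd
  have hm : 1 ≤ m := by omega
  exact ⟨nontrivial_torsion_odd E m hm, finite_torsion_odd E m hm, card_torsion_odd_le E m hm⟩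

end Fermat.Agent.S13.H891
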