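import Mathlib
import Fermat.Prelude.Def_FLTPrelim_FreyPackage
import Fermat.Prelude.Def_FLTPrelim_GaloisRep
import Fermat.Agent.S13.H891.Torsion

/-!
# S13 / T1 for the Frey curve

`T1_frey`: for a Frey package `P`, `V = E[p](ℚ̄)` is nontrivial, finite, of cardinality `≤ p^2`.
`exists_integral_poly`: the division polynomial with coefficients in a subring.
-/

open WeierstrassCurve WeierstrassCurve.Affine Polynomial
open Fermat.Agent.S51.Five (xc)

namespace Fermat.Agent.S13.H891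

/-- the division polynomial `W_m` has coefficients in any ring `R` containing the `b`-invariants,
leading coefficient `2m+1`, and vanishes at the `x`-coordinates of the nonzero `(2m+1)`-torsion
points -/
theorem exists_integral_poly {K : Type*} [Field K] [DecidableEq K]
    (E : WeierstrassCurve.Affine K) {R : Type*} [CommRing R] (φ : R →+* K)
    (c₂ c₄ c₆ c₈ : R) (h₂ : φ c₂ = E.b₂) (h₄ : φ c₄ = E.b₄) (h₆ : φ c₆ = E.b₆)
    (h₈ : φ c₈ = E.b₈) (m : ℕ) (hm : 1 ≤ m) :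
    ∃ Q : R[X], Q.natDegree ≤ 2*m^2 + 2*m ∧ Q.coeff (2*m^2 + 2*m) = ((2*m+1 : ℕ) : R) ∧
      ∀ P : E.Point, P ≠ 0 → ((2*m+1) • P = 0 ↔ (Q.map φ).eval (xc P) = 0) := by
  refine ⟨polyW c₂ c₄ c₆ c₈ m, (dc_polyW c₂ c₄ c₆ c₈ m hm).1, (dc_polyW c₂ c₄ c₆ c₈ m hm).2, ?_⟩
  intro P hP
  rw [map_polyW, h₂, h₄, h₆, h₈]
  exact torsion_iff_root hP m

local notation "Qbar" => AlgebraicClosure ℚ

lemma freyCurve_Δ (P : FreyPackage) :
    P.freyCurve.Δ = ((P.a : ℚ) * P.b * P.c) ^ (2 * P.p) / 2 ^ 8 := by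
  have h : ((P.c : ℚ)) ^ P.p = (P.a : ℚ) ^ P.p + (P.b : ℚ) ^ P.p := by
    exact_mod_cast P.hFLT.symm
  simp only [WeierstrassCurve.Δ, WeierstrassCurve.b₂, WeierstrassCurve.b₄, WeierstrassCurve.b₆,
    WeierstrassCurve.b₈, FreyPackage.freyCurve]
  rw [mul_pow, mul_pow, pow_mul', pow_mul', pow_mul', h]
  ring

lemma freyCurve_Δ_ne_zero (P : FreyPackage) : P.freyCurve.Δ ≠ 0 := by
  rw [freyCurve_Δ]
  have : ((P.a : ℚ) * P.b * P.c) ≠ 0 := by exact_mod_cast P.habc0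
  exact div_ne_zero (pow_ne_zero _ this) (by norm_num)

/-- **T1 for the Frey curve**: `E[p](ℚ̄)` is nontrivial, finite, of cardinality at most `p^2`. -/
theorem T1_frey (P : FreyPackage) :
    Nontrivial (Submodule.torsionBy ℤ (P.freyCurve⁄Qbar).Point ((P.p : ℕ) : ℤ)) ∧
    Finite (Submodule.torsionBy ℤ (P.freyCurve⁄Qbar).Point ((P.p : ℕ) : ℤ)) ∧
    Nat.card (Submodule.torsionBy ℤ (P.freyCurve⁄Qbar).Point ((P.p : ℕ) : ℤ)) ≤ P.p ^ 2 := by
  haveI : (P.freyCurve⁄Qbar).IsElliptic := by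
    constructor
    rw [isUnit_iff_ne_zero]
    show (P.freyCurve.map (algebraMap ℚ Qbar)).Δ ≠ 0
    rw [WeierstrassCurve.map_Δ]
    exact (_root_.map_ne_zero _).mpr (freyCurve_Δ_ne_zero P)
  exact T1_odd (P.freyCurve⁄Qbar) P.p (by have := P.hp5; omega) P.hp_odd

end Fermat.Agent.S13.H891
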